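import Fermat.Agent.CM.Seven.Isogeny
import Fermat.Agent.CongruentNumber.Prime
import Fermat.Agent.Curve17.Descent
import Fermat.Agent.Frob.VarChange
import Fermat.Agent.MordellCurve.TorsionQuartic
import Fermat.Agent.MordellWeil.Structure

/-!
# Descent by two-isogeny on `y² = x³ + p x`

For a prime `p ≢ 1, 9 (mod 16)` a point with `x = a²` is the image of `(X, 2 a X)`,
`X = 2 (a² + w)`, `y = a w`, under the isogeny from `y² = x³ - 4 p x`; `X` is a square or one fixed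
`δ` times a square, and never the latter for `p ≡ 7, 11 (mod 16)`. So the rank is at most one and
zero in these two classes.
-/

set_option autoImplicit false
set_option linter.style.haveILetI false

noncomputable section

open WeierstrassCurve
open FA.CM.Seven (twoCurve twoCurve_equation twoCurve_negY isogHom isogHom_apply isogFun_some
  exists_line)
open FA.Frob (vcEquiv vcEquiv_some vcX vcY)
open FA.CongruentNumber (sq_of_coprime_pos dvd_of_sq_add_sq)
open FA.Curve17 (sq_or_prime_mul_sq)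

namespace FA.QuarticDescent

variable {p : ℕ} [hp : Fact p.Prime]

/-- `y² = x³ + p x`. -/
abbrev curve (p : ℕ) : WeierstrassCurve ℚ := twoCurve 0 (p : ℚ)

/-- `y² = x³ - 4 p x`. -/
abbrev dual (p : ℕ) : WeierstrassCurve ℚ := twoCurve 0 (-4 * (p : ℚ))

instance isElliptic_curve : (curve p).IsElliptic :=
  ⟨isUnit_iff_ne_zero.mpr (by
    simp [Δ, b₂, b₄, b₆, b₈, hp.out.ne_zero])⟩

instance isElliptic_bidual :
    (twoCurve (-2 * (0 : ℚ)) (0 ^ 2 - 4 * (-4 * (p : ℚ)))).IsElliptic :=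
  ⟨isUnit_iff_ne_zero.mpr (by
    simp [Δ, b₂, b₄, b₆, b₈, hp.out.ne_zero])⟩

/-- The scaling to the bidual. -/
def scale : VariableChange ℚ := ⟨Units.mk0 2 two_ne_zero, 0, 0, 0⟩

omit hp in
theorem scale_smul : scale • twoCurve (-2 * (0 : ℚ)) (0 ^ 2 - 4 * (-4 * (p : ℚ))) = curve p := by
  ext <;> simp [scale, variableChange_a₁, variableChange_a₂, variableChange_a₃,
    variableChange_a₄, variableChange_a₆]
  ring

/-- The isogeny `y² = x³ - 4 p x → y² = x³ + p x`. -/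
def psi : (dual p).toAffine.Point →+ (curve p).toAffine.Point :=
  ((vcEquiv scale scale_smul).symm.toAddMonoidHom).comp isogHom

theorem psi_eq {X Y x y : ℚ} {hQ : (dual p).toAffine.Nonsingular X Y}
    {hP : (curve p).toAffine.Nonsingular x y} (hX : X ≠ 0) (hx : 4 * x = (Y / X) ^ 2)
    (hy : 8 * y = Y * (X ^ 2 + 4 * p) / X ^ 2) :
    psi (.some X Y hQ) = Affine.Point.some x y hP := by
  show (vcEquiv scale scale_smul).symm (isogHom (.some X Y hQ)) = _
  rw [AddEquiv.symm_apply_eq, vcEquiv_some, isogHom_apply, isogFun_some hX]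
  simp only [Affine.Point.some.injEq, vcX, vcY, scale, Units.val_mk0]
  constructor
  · linear_combination -hx
  · rw [show (X ^ 2 - -4 * (p : ℚ)) = X ^ 2 + 4 * p by ring]
    linear_combination -hy

theorem nonsingular_curve {x y : ℚ} (h : y ^ 2 = x ^ 3 + (p : ℚ) * x) :
    (curve p).toAffine.Nonsingular x y :=
  Affine.equation_iff_nonsingular.mp (twoCurve_equation.mpr (by linear_combination h))

omit hp in
theorem equation_curve {x y : ℚ} (h : (curve p).toAffine.Nonsingular x y) :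
    y ^ 2 = x ^ 3 + (p : ℚ) * x := by linear_combination twoCurve_equation.mp h.1

theorem nonsingular_dual {X Y : ℚ} (h : Y ^ 2 = X ^ 3 - 4 * (p : ℚ) * X) :
    (dual p).toAffine.Nonsingular X Y :=
  haveI : (dual p).IsElliptic :=
    ⟨isUnit_iff_ne_zero.mpr (by simp [Δ, b₂, b₄, b₆, b₈, hp.out.ne_zero])⟩
  Affine.equation_iff_nonsingular.mp (twoCurve_equation.mpr (by linear_combination h))

/-- The image of a point with square abscissa is twice a point. -/
theorem exists_half {s Y : ℚ} (hs : s ≠ 0) (hQ : (dual p).toAffine.Nonsingular (s ^ 2) Y) :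
    ∃ R, 2 • R = psi (Affine.Point.some (s ^ 2) Y hQ) := by
  have e := twoCurve_equation.mp hQ.1
  set t := Y / s with ht
  have ht2 : t ^ 2 = s ^ 4 - 4 * p := by rw [ht]; field_simp; linear_combination e
  set x := (s ^ 2 + t) / 2 with hx
  have he : x ^ 2 + (p : ℚ) = s ^ 2 * x := by rw [hx]; linear_combination ht2 / 4
  have hx0 : x ≠ 0 := fun h0 => by
    rw [h0] at he
    exact hp.out.ne_zero (by exact_mod_cast (by linarith : (p : ℚ) = 0))
  have hy : s * x ≠ 0 := mul_ne_zero hs hx0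
  refine ⟨.some x (s * x) (nonsingular_curve (by linear_combination -x * he)), ?_⟩
  have hne : s * x ≠ (curve p).toAffine.negY x (s * x) := by
    rw [twoCurve_negY]; intro h; exact hy (by linarith)
  rw [two_nsmul, Affine.Point.add_self_of_Y_ne hne]
  have hl : (curve p).toAffine.slope x x (s * x) (s * x) = (2 * x + s ^ 2) / (2 * s) := by
    rw [Affine.slope_of_Y_ne rfl hne, twoCurve_negY,
      div_eq_div_iff (by simpa using hy) (mul_ne_zero two_ne_zero hs)]
    simp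
    linear_combination 2 * s * he
  symm
  refine psi_eq (pow_ne_zero 2 hs) ?_ ?_
  · rw [hl]
    simp only [Affine.addX, hx, ht]
    field_simp
    ring
  · rw [hl]
    simp only [Affine.addY, Affine.negAddY, Affine.addX, twoCurve_negY, hx, ht]
    field_simp
    linear_combination -8 * Y * e

/-- `P` is twice a point up to torsion. -/
def Halved {G : Type*} [AddCommGroup G] (P : G) : Prop := ∃ R, IsOfFinAddOrder (P - 2 • R)

theorem halved_of_torsion {G : Type*} [AddCommGroup G] {P : G} (h : IsOfFinAddOrder P) :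
    Halved P := ⟨0, by simpa using h⟩

theorem halved_of_add {G : Type*} [AddCommGroup G] {P t : G} (ht : IsOfFinAddOrder t)
    (h : Halved (P + t)) : Halved P := by
  obtain ⟨R, hR⟩ := h
  refine ⟨R, ?_⟩
  have := hR.add ht.neg
  rwa [show P + t - 2 • R + -t = P - 2 • R by abel] at this

/-- The sum of two images with abscissae in one class is twice a point up to torsion. -/
theorem halved_add {δ X₁ Y₁ X₂ Y₂ : ℚ} {h₁ : (dual p).toAffine.Nonsingular X₁ Y₁}
    {h₂ : (dual p).toAffine.Nonsingular X₂ Y₂} (hδ : δ ≠ 0) (hX₁ : X₁ ≠ 0) (hX₂ : X₂ ≠ 0)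
    (s₁ : IsSquare (δ * X₁)) (s₂ : IsSquare (δ * X₂)) :
    Halved (psi (Affine.Point.some X₁ Y₁ h₁) + psi (Affine.Point.some X₂ Y₂ h₂)) := by
  rw [← map_add]
  by_cases hxy : X₁ = X₂ ∧ Y₁ = (dual p).toAffine.negY X₂ Y₂
  · rw [Affine.Point.add_of_Y_eq hxy.1 hxy.2, map_zero]
    exact halved_of_torsion IsOfFinAddOrder.zero
  obtain ⟨M, C, X₃, h₃, -, -, -, -, e₃, hsum⟩ := exists_line h₁ h₂ hxy
  rw [hsum, Affine.Point.neg_some]
  by_cases h0 : X₃ = 0
  · refine halved_of_torsion (AddMonoidHom.isOfFinAddOrder psi ?_)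
    refine isOfFinAddOrder_iff_nsmul_eq_zero.mpr ⟨2, two_pos, ?_⟩
    rw [two_nsmul]
    refine Affine.Point.add_self_of_Y_eq ?_
    have e := twoCurve_equation.mp h₃.1
    subst h0
    have hy : C = 0 := by simpa using e
    simp [hy]
  obtain ⟨r, hr⟩ := s₁
  obtain ⟨s, hs⟩ := s₂
  have hrs : r * s ≠ 0 := fun h => mul_ne_zero (mul_ne_zero hδ hX₁) (mul_ne_zero hδ hX₂) (by
    rw [hr, hs, show r * r * (s * s) = (r * s) * (r * s) by ring, h, zero_mul])
  have hX₃ : X₃ = (δ * C / (r * s)) ^ 2 := by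
    rw [div_pow, eq_div_iff (pow_ne_zero 2 hrs)]
    linear_combination δ ^ 2 * e₃ - δ * X₂ * X₃ * hr - r * r * X₃ * hs
  have hq : δ * C / (r * s) ≠ 0 := fun h => h0 (by rw [hX₃, h]; ring)
  generalize δ * C / (r * s) = q at hX₃ hq
  subst hX₃
  obtain ⟨R, hR⟩ := exists_half (p := p) hq _
  exact ⟨R, by rw [hR, sub_self]; exact IsOfFinAddOrder.zero⟩

/-- The abscissa of a point outside the kernel is a square or `p` times one. -/
theorem isSquare_or_prime {x y : ℚ} (e : y ^ 2 = x ^ 3 + (p : ℚ) * x) (hx : x ≠ 0) :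
    IsSquare x ∨ ∃ s : ℚ, x = p * s ^ 2 := by
  have hp0 : (0 : ℚ) < p := Nat.cast_pos.mpr hp.out.pos
  have hx0 : 0 < x := pos_of_mul_pos_left (b := x ^ 2 + p) (by
    have : 0 ≤ x * (x ^ 2 + p) := by nlinarith [sq_nonneg y]
    exact lt_of_le_of_ne this (mul_ne_zero hx (by positivity)).symm) (by positivity)
  have hd : (0 : ℤ) < x.den := by exact_mod_cast x.den_pos
  have hnd : (x.num : ℚ) = x * ((x.den : ℤ) : ℚ) := by
    exact_mod_cast (Rat.mul_den_eq_num x).symm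
  have ha : 0 < x.num := Rat.num_pos.mpr hx0
  have hco : IsCoprime x.num (x.den : ℤ) := by
    rw [Int.isCoprime_iff_gcd_eq_one, Int.gcd, Int.natAbs_natCast]
    exact x.reduced
  set a := x.num
  set d : ℤ := (x.den : ℤ)
  have hrest : 0 < a ^ 2 + (p : ℤ) * d ^ 2 :=
    add_pos_of_pos_of_nonneg (by positivity) (by positivity)
  obtain ⟨W, hW⟩ : IsSquare (d * (a * (a ^ 2 + (p : ℤ) * d ^ 2))) := by
    refine Rat.isSquare_intCast_iff.1 ⟨y * ((d : ℤ) : ℚ) ^ 2, ?_⟩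
    push_cast; rw [hnd]
    linear_combination -((d : ℤ) : ℚ) ^ 4 * e
  rw [← sq] at hW
  have hc : IsCoprime d (a * (a ^ 2 + (p : ℤ) * d ^ 2)) := by
    refine hco.symm.mul_right ?_
    have := (hco.pow_left (m := 2)).symm.add_mul_left_right ((p : ℤ) * d)
    rwa [show a ^ 2 + d * ((p : ℤ) * d) = a ^ 2 + (p : ℤ) * d ^ 2 by ring] at this
  obtain ⟨r, hr⟩ := sq_of_coprime_pos hc hd hW
  obtain ⟨f, hf⟩ := sq_of_coprime_pos hc.symm (mul_pos ha hrest) ((mul_comm _ _).trans hW)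
  have hxe : x = (a : ℚ) / (r : ℚ) ^ 2 := by
    have hdq : ((d : ℤ) : ℚ) ≠ 0 := Int.cast_ne_zero.mpr hd.ne'
    rw [hr, Int.cast_pow] at hnd hdq
    rw [hnd, mul_div_assoc, div_self hdq, mul_one]
  obtain ⟨s, hs | hs | hs | hs⟩ := sq_or_prime_mul_sq (Nat.prime_iff_prime_int.mp hp.out) _ a _ f
      le_rfl ha.ne' hf fun q hq h1 h2 => by
    have h : q ∣ (p : ℤ) * d ^ 2 := by simpa using dvd_sub h2 (dvd_pow h1 two_ne_zero)
    rcases hq.dvd_or_dvd h with h | h
    · exact h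
    · exact absurd (hco.isUnit_of_dvd' h1 (hq.dvd_of_dvd_pow h)) hq.not_isUnit
  · exact Or.inl ⟨s / r, by rw [hxe, hs]; push_cast; ring⟩
  · nlinarith [sq_nonneg s]
  · exact Or.inr ⟨s / r, by rw [hxe, hs]; push_cast; ring⟩
  · nlinarith [mul_nonneg (Int.natCast_nonneg p) (sq_nonneg s)]

/-- The class of the second kind. -/
def dualClass (p : ℕ) : ℚ := if p % 16 = 15 then 2 else if p % 16 = 3 then 2 * p else p

theorem dualClass_ne_zero : dualClass p ≠ 0 := by
  have : (p : ℚ) ≠ 0 := Nat.cast_ne_zero.mpr hp.out.ne_zero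
  unfold dualClass
  split_ifs <;> positivity

/-- The congruences modulo `16`. -/
theorem even_of_mod_sixteen {r : ℕ} (hr : r ∈ ({3, 5, 7, 11, 13, 15} : Finset ℕ)) {A B c d : ℤ}
    (hcd : c * d = B ^ 2)
    (h : (r ≠ 15 ∧ ((c : ZMod 16)) ^ 2 - r * (d : ZMod 16) ^ 2 = 2 * (A : ZMod 16) ^ 2) ∨
      (r ≠ 3 ∧ r * (c : ZMod 16) ^ 2 - (d : ZMod 16) ^ 2 = 2 * (A : ZMod 16) ^ 2)) :
    (2 : ℤ) ∣ A ∧ (2 : ℤ) ∣ B := by
  have key : ∀ r ∈ ([3, 5, 7, 11, 13, 15] : List (ZMod 16)), ∀ c d B : ZMod 16, c * d = B ^ 2 →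
      ∀ A : ZMod 16, ((r ≠ 15 ∧ c ^ 2 - r * d ^ 2 = 2 * A ^ 2) ∨
        (r ≠ 3 ∧ r * c ^ 2 - d ^ 2 = 2 * A ^ 2)) → 8 * A = 0 ∧ 8 * B = 0 := by
    decide +kernel
  simp only [Finset.mem_insert, Finset.mem_singleton] at hr
  obtain ⟨h1, h2⟩ := key (r : ZMod 16)
    (by rcases hr with rfl | rfl | rfl | rfl | rfl | rfl <;> decide)
    (c : ZMod 16) d B (by exact_mod_cast congrArg (Int.cast : ℤ → ZMod 16) hcd) A (by
      rcases hr with rfl | rfl | rfl | rfl | rfl | rfl <;>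
        first | exact h | exact h.imp (fun h => ⟨by decide, h.2⟩) (fun h => ⟨by decide, h.2⟩) |
          exact Or.inl ⟨by decide, (h.resolve_right fun h => h.1 rfl).2⟩ |
          exact Or.inr ⟨by decide, (h.resolve_left fun h => h.1 rfl).2⟩)
  have half : ∀ w : ℤ, 8 * (w : ZMod 16) = 0 → (2 : ℤ) ∣ w := fun w hw => by
    have h' : ((16 : ℕ) : ℤ) ∣ 8 * w := (ZMod.intCast_zmod_eq_zero_iff_dvd _ 16).mp (by
      push_cast; exact hw)
    omega
  exact ⟨half A h1, half B h2⟩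

/-- The descent proper. -/
theorem classify (h16 : p % 16 ∈ ({3, 5, 7, 11, 13, 15} : Finset ℕ)) {A B W : ℤ}
    (hAB : IsCoprime A B) (hA : A ≠ 0) (hW : 0 < W)
    (e : W ^ 2 = A ^ 4 + p * B ^ 4) :
    IsSquare ((2 * (W + A ^ 2) : ℤ) : ℚ) ∨
      (IsSquare (dualClass p * ((2 * (W + A ^ 2) : ℤ) : ℚ)) ∧ p % 16 ≠ 7 ∧ p % 16 ≠ 11) := by
  have hpI : Prime (p : ℤ) := Nat.prime_iff_prime_int.mp hp.out
  have hp2 : p ≠ 2 := by intro h; subst h; simp at h16
  have notboth : ∀ {q : ℤ}, Prime q → q ∣ A → q ∣ B → False := fun hq h1 h2 =>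
    hq.not_isUnit (hAB.isUnit_of_dvd' h1 h2)
  have hAW : ∀ {q : ℤ}, Prime q → q ∣ A → q ∣ W → False := fun {q} hq h1 h2 => by
    have h : q ^ 2 ∣ (p : ℤ) * B ^ 4 := by
      rw [show (p : ℤ) * B ^ 4 = W ^ 2 - A ^ 4 by linarith]
      exact dvd_sub (pow_dvd_pow_of_dvd h2 2)
        ((pow_dvd_pow_of_dvd h1 2).trans (pow_dvd_pow A (by norm_num)))
    have hc : IsCoprime (q ^ 2) (B ^ 4) :=
      (hq.coprime_iff_not_dvd.mpr fun hb => notboth hq h1 hb).pow
    exact hq.not_isUnit ((Int.squarefree_natCast.mpr hp.out.squarefree) q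
      (sq q ▸ hc.dvd_of_dvd_mul_right h))
  have hg : ∀ q : ℤ, Prime q → q ∣ W + A ^ 2 → q ∣ W - A ^ 2 → q ∣ 2 := fun q hq h1 h2 => by
    have e1 : q ∣ 2 * A ^ 2 := by
      have := dvd_sub h1 h2; rwa [show W + A ^ 2 - (W - A ^ 2) = 2 * A ^ 2 by ring] at this
    have e2 : q ∣ 2 * W := by
      have := dvd_add h1 h2; rwa [show W + A ^ 2 + (W - A ^ 2) = 2 * W by ring] at this
    exact (hq.dvd_or_dvd e1).elim id fun a => (hq.dvd_or_dvd e2).elim id fun b =>
      (hAW hq (hq.dvd_of_dvd_pow a) b).elim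
  have notboth_p : (p : ℤ) ∣ W + A ^ 2 → ¬ (p : ℤ) ∣ W - A ^ 2 := fun h1 h2 => hp2
    (((Nat.dvd_prime Nat.prime_two).mp (Int.natCast_dvd_natCast.mp (hg _ hpI h1 h2))).resolve_left
      hp.out.one_lt.ne')
  have hu : 0 < W + A ^ 2 := by positivity
  have euv : (W + A ^ 2) * (W - A ^ 2) = p * B ^ 4 := by linear_combination e
  have hp16 : (p : ZMod 16) = ((p % 16 : ℕ) : ZMod 16) := (ZMod.natCast_mod p 16).symm
  -- a square cofactor
  have cofactor : ∀ {c v : ℤ}, c ≠ 0 → c ^ 2 * v = (B ^ 2) ^ 2 →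
      ∃ d, c * d = B ^ 2 ∧ v = d ^ 2 := by
    intro c v hc h
    obtain ⟨d, hd⟩ : c ∣ B ^ 2 := (Int.pow_dvd_pow_iff two_ne_zero).1 ⟨v, h.symm⟩
    exact ⟨d, hd.symm, mul_left_cancel₀ (pow_ne_zero 2 hc) (by rw [h, hd]; ring)⟩
  by_cases hpu : (p : ℤ) ∣ W + A ^ 2
  swap
  · obtain ⟨v, hv⟩ : (p : ℤ) ∣ W - A ^ 2 := (hpI.dvd_or_dvd ⟨B ^ 4, euv⟩).resolve_left hpu
    obtain ⟨c, hc | hc | hc | hc⟩ := sq_or_prime_mul_sq Int.prime_two _ (W + A ^ 2) v (B ^ 2) le_rfl
      hu.ne' (mul_left_cancel₀ hpI.ne_zero (by rw [hv] at euv; linear_combination euv))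
      fun q hq h1 h2 => hg q hq h1 (hv ▸ h2.mul_left _)
    · obtain ⟨d, hcd, rfl⟩ := cofactor (c := c) (v := v) (by rintro rfl; simp at hc; omega)
        (mul_left_cancel₀ hpI.ne_zero (by rw [hv, hc] at euv; linear_combination euv))
      by_cases h15 : p % 16 = 15
      · refine Or.inr ⟨⟨2 * c, ?_⟩, by omega, by omega⟩
        rw [dualClass, if_pos h15, hc]; push_cast; ring
      · obtain ⟨h1, h2⟩ := even_of_mod_sixteen h16 hcd (A := A) (Or.inl ⟨h15, by
          rw [← hp16]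
          have := congrArg (Int.cast : ℤ → ZMod 16)
            (show c ^ 2 - p * d ^ 2 = 2 * A ^ 2 by linarith)
          push_cast at this; exact this⟩)
        exact (notboth Int.prime_two h1 h2).elim
    · nlinarith [sq_nonneg c]
    · exact Or.inl ⟨2 * c, by rw [hc]; push_cast; ring⟩
    · nlinarith [sq_nonneg c]
  obtain ⟨u, hu'⟩ := hpu
  have huv : u * (W - A ^ 2) = (B ^ 2) ^ 2 :=
    mul_left_cancel₀ hpI.ne_zero (by rw [hu'] at euv; linear_combination euv)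
  have hu0 : 0 < u := pos_of_mul_pos_right (hu' ▸ hu) (Int.natCast_nonneg p)
  obtain ⟨c, hc | hc | hc | hc⟩ := sq_or_prime_mul_sq Int.prime_two _ u (W - A ^ 2) (B ^ 2) le_rfl
    hu0.ne' huv fun q hq h1 h2 => hg q hq (hu' ▸ h1.mul_left _) h2
  · obtain ⟨d, hcd, hd⟩ := cofactor (c := c) (v := W - A ^ 2) (by rintro rfl; simp at hc; omega)
      (hc ▸ huv)
    by_cases h3 : p % 16 = 3
    · refine Or.inr ⟨⟨2 * p * c, ?_⟩, by omega, by omega⟩
      rw [dualClass, if_neg (by omega), if_pos h3, hu', hc]; push_cast; ring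
    · obtain ⟨h1, h2⟩ := even_of_mod_sixteen h16 hcd (A := A) (Or.inr ⟨h3, by
        rw [← hp16]
        have := congrArg (Int.cast : ℤ → ZMod 16)
          (show p * c ^ 2 - d ^ 2 = 2 * A ^ 2 by rw [hc] at hu'; linarith)
        push_cast at this; exact this⟩)
      exact (notboth Int.prime_two h1 h2).elim
  · nlinarith [sq_nonneg c]
  · have hc0 : c ≠ 0 := by rintro rfl; simp at hc; omega
    obtain ⟨d, -, hd⟩ := cofactor (v := 2 * (W - A ^ 2)) hc0
      (by rw [hc] at huv; linear_combination huv)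
    by_cases h4 : p % 4 = 3
    · exfalso
      obtain ⟨d', rfl⟩ : (2 : ℤ) ∣ d := Int.prime_two.dvd_of_dvd_pow (n := 2) ⟨_, hd.symm⟩
      have hd' : (p : ℤ) ∣ d' := dvd_of_sq_add_sq h4 (c := A) ⟨c ^ 2, by
        rw [hc] at hu'; linarith⟩
      exact notboth_p ⟨u, hu'⟩ (by
        rw [show W - A ^ 2 = 2 * d' ^ 2 by linarith]
        exact (dvd_pow hd' two_ne_zero).mul_left 2)
    · refine Or.inr ⟨⟨2 * p * c, ?_⟩, by omega, by omega⟩
      rw [dualClass, if_neg (by omega), if_neg (by omega), hu', hc]; push_cast; ring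
  · nlinarith [sq_nonneg c]

/-- A point that is not halved is, up to torsion, an image of the second kind; there is none for
`p ≡ 7, 11 (mod 16)`. -/
theorem second_kind (h16 : p % 16 ∈ ({3, 5, 7, 11, 13, 15} : Finset ℕ))
    {P : (curve p).toAffine.Point} (hP : ¬ Halved P) :
    (p % 16 ≠ 7 ∧ p % 16 ≠ 11) ∧ ∃ t, IsOfFinAddOrder t ∧ ∃ X Y h, X ≠ 0 ∧
      IsSquare (dualClass p * X) ∧ P + t = psi (Affine.Point.some X Y h) := by
  let T : (curve p).toAffine.Point := .some 0 0 (nonsingular_curve (by ring))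
  have hT : IsOfFinAddOrder T := isOfFinAddOrder_iff_nsmul_eq_zero.mpr ⟨2, two_pos, by
    rw [two_nsmul]; exact Affine.Point.add_self_of_Y_eq (by simp)⟩
  obtain ⟨t, ht, x, y, h, hPt, hx0, ⟨a, rfl⟩⟩ : ∃ t, IsOfFinAddOrder t ∧ ∃ x y h,
      P + t = Affine.Point.some x y h ∧ x ≠ 0 ∧ IsSquare x := by
    rcases P with _ | ⟨x, y, h⟩
    · exact absurd (halved_of_torsion IsOfFinAddOrder.zero) hP
    have hx : x ≠ 0 := by
      rintro rfl
      obtain rfl : y = 0 := by simpa using equation_curve h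
      exact hP (halved_of_torsion hT)
    rcases isSquare_or_prime (equation_curve h) hx with hs | ⟨s, hs⟩
    · exact ⟨0, IsOfFinAddOrder.zero, x, y, h, add_zero _, hx, hs⟩
    refine ⟨T, hT, _, _, _, Affine.Point.add_of_X_ne hx, ?_⟩
    have hX : (curve p).toAffine.addX x 0 ((curve p).toAffine.slope x 0 y 0) = (p : ℚ) / x := by
      rw [Affine.slope_of_X_ne hx]
      simp only [Affine.addX]
      field_simp
      linear_combination x * equation_curve h
    have hs0 : s ≠ 0 := fun h0 => hx (by rw [hs, h0]; ring)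
    rw [hX]
    refine ⟨div_ne_zero (Nat.cast_ne_zero.mpr hp.out.ne_zero) hx, 1 / s, ?_⟩
    have : (p : ℚ) ≠ 0 := Nat.cast_ne_zero.mpr hp.out.ne_zero
    rw [hs]; field_simp
  have e := equation_curve h
  have ha : a ≠ 0 := fun h0 => hx0 (by rw [h0, mul_zero])
  -- the positive root `w`
  obtain ⟨w, hw, hw2, hyw⟩ : ∃ w : ℚ, 0 < w ∧ w ^ 2 = a ^ 4 + p ∧ (y = a * w ∨ y = -a * w) := by
    have h1 : (y / a) ^ 2 = a ^ 4 + p := by field_simp; linear_combination e
    have h2 : y / a ≠ 0 := fun h0 => by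
      rw [h0] at h1
      have : (0 : ℚ) < a ^ 4 + p := by positivity
      simp at h1
      linarith
    refine ⟨|y / a|, abs_pos.mpr h2, by rw [sq_abs, h1], ?_⟩
    rcases abs_choice (y / a) with hh | hh <;> rw [hh]
    · exact Or.inl (by field_simp)
    · exact Or.inr (by field_simp)
  obtain ⟨a', hyw', ha'⟩ : ∃ a', y = a' * w ∧ a * a = a' * a' := by
    rcases hyw with hh | hh
    · exact ⟨a, hh, rfl⟩
    · exact ⟨-a, hh, by ring⟩
  set X := 2 * (a * a + w) with hXdef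
  have hX : 0 < X := by
    have := mul_self_nonneg a
    positivity
  have hQ : (dual p).toAffine.Nonsingular X (2 * a' * X) := nonsingular_dual (by
    rw [hXdef]
    linear_combination 4 * (2 * (a * a + w)) ^ 2 * ha'.symm - (8 * (a * a + w)) * hw2)
  have himage : psi (.some X (2 * a' * X) hQ) = Affine.Point.some (a * a) y h := by
    refine psi_eq hX.ne' ?_ ?_
    · field_simp; linear_combination 4 * ha'
    · rw [hyw', eq_div_iff (pow_ne_zero 2 hX.ne'), hXdef]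
      linear_combination 16 * a' * (a * a + w) * hw2
  -- integers
  have hd : ((a.den : ℤ) : ℚ) ≠ 0 := Int.cast_ne_zero.mpr (Int.natCast_ne_zero.mpr a.den_ne_zero)
  have hnd : (a.num : ℚ) = a * ((a.den : ℤ) : ℚ) := by exact_mod_cast (Rat.mul_den_eq_num a).symm
  obtain ⟨W, hW⟩ := FA.CongruentNumber.exists_int_of_sq (w := w * ((a.den : ℤ) : ℚ) ^ 2)
    (k := a.num ^ 4 + p * (a.den : ℤ) ^ 4) (by
      rw [Int.cast_add, Int.cast_mul, Int.cast_pow, Int.cast_pow, hnd, Int.cast_natCast]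
      linear_combination ((a.den : ℤ) : ℚ) ^ 4 * hw2)
  have hWpos : 0 < W := by
    have : (0 : ℚ) < W := hW ▸ by positivity
    exact_mod_cast this
  have hWe : W ^ 2 = a.num ^ 4 + p * (a.den : ℤ) ^ 4 := by
    have : (W : ℚ) ^ 2 = (a.num : ℚ) ^ 4 + p * ((a.den : ℤ) : ℚ) ^ 4 := by
      rw [← hW, hnd]; linear_combination ((a.den : ℤ) : ℚ) ^ 4 * hw2
    exact_mod_cast this
  have hXe : X = ((2 * (W + a.num ^ 2) : ℤ) : ℚ) / ((a.den : ℤ) : ℚ) ^ 2 := by
    rw [Int.cast_mul, Int.cast_add, Int.cast_pow, ← hW, hnd, hXdef]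
    field_simp
    push_cast
    ring
  rcases classify h16 (A := a.num) (B := (a.den : ℤ)) (by
      rw [Int.isCoprime_iff_gcd_eq_one, Int.gcd, Int.natAbs_natCast]; exact a.reduced)
    (Rat.num_ne_zero.mpr ha) hWpos hWe with
    ⟨s, hs⟩ | ⟨⟨s, hs⟩, h7, h11⟩
  · refine absurd (halved_of_add ht ?_) hP
    have hsX : X = (s / ((a.den : ℤ) : ℚ)) ^ 2 := by rw [hXe, hs, div_pow, sq s]
    have hs0 : s / ((a.den : ℤ) : ℚ) ≠ 0 := fun h0 => hX.ne' (by rw [hsX, h0]; ring)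
    rw [hPt, ← himage]
    generalize s / ((a.den : ℤ) : ℚ) = q at hsX hs0
    clear_value X
    subst hsX
    obtain ⟨R, hR⟩ := exists_half hs0 hQ
    exact ⟨R, by rw [hR, sub_self]; exact IsOfFinAddOrder.zero⟩
  · refine ⟨⟨h7, h11⟩, t, ht, X, _, hQ, hX.ne', ⟨s / ((a.den : ℤ) : ℚ), ?_⟩,
      hPt.trans himage.symm⟩
    rw [hXe, mul_div_assoc', hs, div_mul_div_comm, sq]

/-- Rank at most one, and zero for `p ≡ 7, 11 (mod 16)`. -/
theorem exists_rank_le_one (h16 : p % 16 ∈ ({3, 5, 7, 11, 13, 15} : Finset ℕ)) :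
    ∃ r ≤ 1, (p % 16 = 7 ∨ p % 16 = 11 → r = 0) ∧
      Nonempty ((curve p).toAffine.Point ≃+ ZMod 2 × (Fin r → ℤ)) := by
  haveI := FA.MordellWeil.mordell (curve p)
  obtain ⟨r, ⟨e⟩⟩ := FA.MordellWeil.exists_equiv_torsion_prod (curve p).toAffine.Point
  obtain ⟨f⟩ := (FA.Summary.quarticTwist_torsion (p : ℤ) fun m hm => by
      have h : m * m ∣ (p : ℤ) := (Dvd.intro (m * m) (by ring : m * m * (m * m) = m ^ 4)).trans hm
      exact Int.squarefree_natCast.mpr hp.out.squarefree m h).2.2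
    (by intro h; have h4 : p = 4 := by exact_mod_cast h
        exact absurd (h4 ▸ hp.out) (by norm_num))
    (fun ⟨k, hk⟩ => by nlinarith [mul_self_nonneg k, hp.out.pos])
  have even : ∀ {P}, Halved P → ∀ k, (2 : ℤ) ∣ (e P).2 k := by
    rintro P ⟨R, hR⟩ k
    obtain ⟨m, hm, hm0⟩ := isOfFinAddOrder_iff_nsmul_eq_zero.mp
      (((AddMonoidHom.snd _ _).comp e.toAddMonoidHom).isOfFinAddOrder hR)
    have := congrFun hm0 k
    simp [hm.ne', map_nsmul] at this
    exact ⟨(e R).2 k, by linarith⟩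
  let u (k : Fin r) : (curve p).toAffine.Point := e.symm (0, Pi.single k 1)
  have odd : ∀ k, ¬ Halved (u k) := fun k h => by
    have h1 : (2 : ℤ) ∣ 1 := by simpa [u] using even h k
    omega
  refine ⟨r, ?_, fun h => ?_, ⟨e.trans (f.prodCongr (AddEquiv.refl _))⟩⟩
  · by_contra! hr
    set i : Fin r := ⟨0, by omega⟩
    set j : Fin r := ⟨1, by omega⟩
    obtain ⟨-, t, ht, X₁, Y₁, g₁, n₁, s₁, e₁⟩ := second_kind h16 (odd i)
    obtain ⟨-, t', ht', X₂, Y₂, g₂, n₂, s₂, e₂⟩ := second_kind h16 (odd j)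
    have hh : Halved (u i + u j) := halved_of_add (ht.add ht') (by
      rw [show u i + u j + (t + t') = (u i + t) + (u j + t') by abel, e₁, e₂]
      exact halved_add dualClass_ne_zero n₁ n₂ s₁ s₂)
    have h1 : (2 : ℤ) ∣ 1 := by simpa [u, i, j, Fin.ext_iff] using even hh i
    omega
  · by_contra hr
    obtain ⟨⟨h7, h11⟩, -⟩ := second_kind h16 (odd ⟨0, Nat.pos_of_ne_zero hr⟩)
    omega

end FA.QuarticDescent

namespace FA.Summary

open FA.QuarticDescent

/-- **The quartic twist by a prime `p ≡ 7, 11 (mod 16)`**: the rational points of `y² = x³ + p x`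
are `ℤ/2`. -/
theorem point_group_quartic_prime (p : ℕ) (hp : p.Prime) (h16 : p % 16 = 7 ∨ p % 16 = 11) :
    Nonempty ((⟨0, 0, 0, (p : ℚ), 0⟩ : WeierstrassCurve ℚ).toAffine.Point ≃+ ZMod 2) := by
  haveI := Fact.mk hp
  obtain ⟨r, -, h0, ⟨e⟩⟩ := exists_rank_le_one (p := p) (by simp; omega)
  obtain rfl := h0 h16
  exact ⟨e.trans (AddEquiv.prodUnique (M := ZMod 2) (N := Fin 0 → ℤ))⟩

/-- **The quartic twist by a prime `p ≢ 1, 9 (mod 16)`**: the rational points of `y² = x³ + p x` are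
`ℤ/2` or `ℤ/2 × ℤ`. -/
theorem point_group_quartic_prime_le_one (p : ℕ) (hp : p.Prime) (hp2 : p ≠ 2)
    (h1 : p % 16 ≠ 1) (h9 : p % 16 ≠ 9) :
    ∃ r ≤ 1, Nonempty ((⟨0, 0, 0, (p : ℚ), 0⟩ : WeierstrassCurve ℚ).toAffine.Point ≃+
      ZMod 2 × (Fin r → ℤ)) := by
  haveI := Fact.mk hp
  obtain ⟨k, hk⟩ := hp.odd_of_ne_two hp2
  obtain ⟨r, hr, -, he⟩ := exists_rank_le_one (p := p) (by simp; omega)
  exact ⟨r, hr, he⟩

end FA.Summary

end
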